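import Mathlib
import Fermat.Agent.LT.CFT.SpecX
import Fermat.Agent.Lib.Cheb.Chebotarev

/-!
# Row LT, tower CFT, sub-tower EX, leaf CFT.17 `ChebKC` (helper881)

OFF-MAIN.  `chebKC881 : CFT.ChebKC` VERBATIM (`LT/CFT/SpecX.lean` of helper53).

Proof.  `E = M ⊔ j(K)`; qualitative Chebotarev over `ℚ` (main, `Lib.Cheb.chebotarev`) gives a prime
`ℓ` outside the primes under `S`, a valuation subring `A` of `ℚ̄` over `ℓ` and a Frobenius element
`τ` at `A` with `τ = σ` on `E`.  So `τ` fixes `j(K)`; `w = A ∩ 𝓞_K` is a prime of `K` over `ℓ`, and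
`x ^ ℓ ≡ τ x = x` modulo `w` for `x ∈ 𝓞_K`: the residue field of `w` has `ℓ` elements.
-/

set_option autoImplicit false

open IsDedekindDomain NumberField

noncomputable section

namespace Fermat.Agent.LT.CFT.H881

local notation "Qb" => AlgebraicClosure ℚ
local notation "GQ" => (AlgebraicClosure ℚ ≃ₐ[ℚ] AlgebraicClosure ℚ)

/-- A valuation subring contains the algebraic integers. -/
theorem isIntegral_memK881 {F : Type*} [Field F] (A : ValuationSubring F)
    {b : F} (hb : IsIntegral ℤ b) : b ∈ A := by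
  have h1 : IsIntegral A.toSubring b := by
    obtain ⟨p, hp, hpb⟩ := hb
    refine ⟨p.map (algebraMap ℤ A.toSubring), hp.map _, ?_⟩
    rw [Polynomial.eval₂_map]
    have : (algebraMap A.toSubring F).comp (algebraMap ℤ A.toSubring) = algebraMap ℤ F := by
      ext; simp
    rw [this]
    exact hpb
  have h2 := (IsIntegrallyClosed.isIntegral_iff (R := A) (K := F)).mp h1
  obtain ⟨y, hy⟩ := h2
  rw [← hy]
  exact y.2

/-- The Frobenius congruence of a Prelude Frobenius element. -/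
theorem frob_congrK881 {A : ValuationSubring Qb} {σ : GQ} {ℓ : ℕ} (h : A.IsFrobeniusAt σ ℓ)
    {x : Qb} (hx : x ∈ A) : σ x - x ^ ℓ ∈ A.nonunits := by
  obtain ⟨hσ, h⟩ := h
  have h1 := h (IsLocalRing.residue A ⟨x, hx⟩)
  rw [← IsLocalRing.ResidueField.residue_smul, ← map_pow, ← sub_eq_zero, ← map_sub,
    IsLocalRing.residue_eq_zero_iff, ← ValuationSubring.coe_mem_nonunits_iff] at h1
  exact h1

/-- A finite field in which `y ^ ℓ = y` for all `y` has at most `ℓ` elements. -/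
theorem card_le_of_pow_eq881 {k : Type*} [Field k] [Finite k] {ℓ : ℕ} (hℓ : 1 < ℓ)
    (h : ∀ y : k, y ^ ℓ = y) : Nat.card k ≤ ℓ := by
  classical
  have := Fintype.ofFinite k
  rw [Nat.card_eq_fintype_card]
  have hp0 := FiniteField.X_pow_card_sub_X_ne_zero k hℓ
  have hsub : (Finset.univ : Finset k)
      ⊆ (Polynomial.X ^ ℓ - Polynomial.X : Polynomial k).roots.toFinset := by
    intro y _
    rw [Multiset.mem_toFinset, Polynomial.mem_roots hp0]
    simp [h y]
  calc Fintype.card k = (Finset.univ : Finset k).card := Finset.card_univ.symm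
    _ ≤ (Polynomial.X ^ ℓ - Polynomial.X : Polynomial k).roots.toFinset.card :=
        Finset.card_le_card hsub
    _ ≤ Multiset.card (Polynomial.X ^ ℓ - Polynomial.X : Polynomial k).roots :=
        Multiset.toFinset_card_le _
    _ ≤ (Polynomial.X ^ ℓ - Polynomial.X : Polynomial k).natDegree := Polynomial.card_roots' _
    _ = ℓ := FiniteField.X_pow_card_sub_X_natDegree_eq k hℓ

/-- A finite field in which the prime `ℓ` vanishes has at least `ℓ` elements. -/
theorem le_card_of_cast_eq_zero881 {k : Type*} [Field k] [Finite k] {ℓ : ℕ} (hℓ : ℓ.Prime)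
    (h : (ℓ : k) = 0) : ℓ ≤ Nat.card k := by
  have h1 : addOrderOf (1 : k) ∣ ℓ := by
    apply addOrderOf_dvd_of_nsmul_eq_zero
    rw [nsmul_eq_mul, mul_one]; exact h
  have h2 : addOrderOf (1 : k) = ℓ := by
    rcases hℓ.eq_one_or_self_of_dvd _ h1 with h3 | h3
    · rw [AddMonoid.addOrderOf_eq_one_iff] at h3
      exact absurd h3 one_ne_zero
    · exact h3
  have h3 : addOrderOf (1 : k) ∣ Nat.card k := addOrderOf_dvd_natCard 1
  rw [h2] at h3
  exact Nat.le_of_dvd Nat.card_pos h3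

/-- **Leaf CFT.17**: Chebotarev for `G_K`, degree-one primes. -/
theorem chebKC881 : Fermat.Agent.LT.CFT.ChebKC := by
  classical
  intro K _ _ j M hM σ hσ S
  -- the image of `K` in `ℚ̄`
  let jQ : K →ₐ[ℚ] Qb := j.toRatAlgHom
  let JK : IntermediateField ℚ Qb := jQ.fieldRange
  have hJK : FiniteDimensional ℚ JK := by
    let g : K →ₗ[ℚ] JK :=
      { toFun := fun x => ⟨jQ x, ⟨x, rfl⟩⟩
        map_add' := fun x y => Subtype.ext (map_add jQ x y)
        map_smul' := fun c x => Subtype.ext (jQ.toLinearMap.map_smul c x) }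
    have hg : Function.Surjective g := by
      rintro ⟨y, x, rfl⟩
      exact ⟨x, rfl⟩
    exact Module.Finite.of_surjective g hg
  have hM' : FiniteDimensional ℚ M := hM
  have hE : FiniteDimensional ℚ (M ⊔ JK : IntermediateField ℚ Qb) :=
    IntermediateField.finiteDimensional_sup M JK
  let S' : Finset ℕ := S.image fun w => (Ideal.absNorm w.asIdeal).minFac
  obtain ⟨ℓ, A, τ, hℓ, hℓS, hAℓ, hfrob, -, hτ⟩ :=
    Fermat.Agent.Lib.Cheb.chebotarev (M ⊔ JK) hE σ S'
  have hτj : ∀ x : K, τ (j x) = j x := fun x => by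
    have hx : j x ∈ (M ⊔ JK : IntermediateField ℚ Qb) :=
      (le_sup_right : JK ≤ M ⊔ JK) ⟨x, rfl⟩
    rw [hτ _ hx]
    exact hσ x
  -- the prime of `K` under `A`
  let f : 𝓞 K →+* Qb := j.comp (algebraMap (𝓞 K) K)
  have hint : ∀ x : 𝓞 K, f x ∈ A := fun x =>
    isIntegral_memK881 A ((RingOfIntegers.isIntegral_coe x).map j.toIntAlgHom)
  let fA : 𝓞 K →+* A := f.codRestrict A.toSubring hint
  let P : Ideal (𝓞 K) := Ideal.comap fA (IsLocalRing.maximalIdeal A)
  have hP : ∀ x : 𝓞 K, x ∈ P ↔ j (algebraMap (𝓞 K) K x) ∈ A.nonunits := fun x =>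
    (ValuationSubring.coe_mem_nonunits_iff (A := A) (a := fA x)).symm
  have hPprime : P.IsPrime := Ideal.comap_isPrime fA _
  have hℓP : ((ℓ : ℕ) : 𝓞 K) ∈ P := by
    rw [hP, map_natCast, map_natCast]
    exact hAℓ
  have hPne : P ≠ ⊥ := by
    intro h
    rw [h, Ideal.mem_bot] at hℓP
    exact hℓ.ne_zero (by exact_mod_cast hℓP)
  let w : HeightOneSpectrum (𝓞 K) := ⟨P, hPprime, hPne⟩
  have hmax : P.IsMaximal := w.isMaximal
  let _ : Field (𝓞 K ⧸ P) := Ideal.Quotient.field P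
  have hfin : Finite (𝓞 K ⧸ P) := Ideal.finiteQuotientOfFreeOfNeBot P hPne
  have hpow : ∀ y : 𝓞 K ⧸ P, y ^ ℓ = y := by
    intro y
    obtain ⟨x, rfl⟩ := Ideal.Quotient.mk_surjective y
    rw [← map_pow, ← sub_eq_zero, ← map_sub, Ideal.Quotient.eq_zero_iff_mem, hP]
    have h1 := frob_congrK881 hfrob (hint x)
    have h2 : f x = j (algebraMap (𝓞 K) K x) := rfl
    rw [h2, hτj] at h1
    have h3 : j (algebraMap (𝓞 K) K (x ^ ℓ - x))
        = -(j (algebraMap (𝓞 K) K x) - j (algebraMap (𝓞 K) K x) ^ ℓ) := by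
      rw [map_sub, map_sub, map_pow, map_pow]; ring
    rw [h3, ValuationSubring.mem_nonunits_iff, Valuation.map_neg,
      ← ValuationSubring.mem_nonunits_iff]
    exact h1
  have hle : Nat.card (𝓞 K ⧸ P) ≤ ℓ := card_le_of_pow_eq881 hℓ.one_lt hpow
  have hge : ℓ ≤ Nat.card (𝓞 K ⧸ P) := by
    apply le_card_of_cast_eq_zero881 hℓ
    rw [← map_natCast (Ideal.Quotient.mk P), Ideal.Quotient.eq_zero_iff_mem]
    exact hℓP
  have hcard : Nat.card (𝓞 K ⧸ w.asIdeal) = ℓ := le_antisymm hle hge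
  have hnorm : Ideal.absNorm w.asIdeal = ℓ := by
    rw [Ideal.absNorm_apply, Submodule.cardQuot_apply]
    exact hcard
  refine ⟨w, τ, ?_, ?_, ⟨hτj, A, fun x => hP x, ?_⟩, ?_⟩
  · intro hw
    apply hℓS
    exact Finset.mem_image.2 ⟨w, hw, by rw [hnorm, hℓ.minFac_eq]⟩
  · rw [hnorm]; exact hℓ
  · rw [hcard]; exact hfrob
  · intro x hx
    exact hτ x ((le_sup_left : M ≤ M ⊔ JK) hx)

end Fermat.Agent.LT.CFT.H881
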